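import Mathlib
import Fermat.Prelude.Def_FLTPrelim_FreyPackage
import Fermat.Prelude.Def_FLTPrelim_GaloisRep
import Fermat.Prelude.Def_FLTPrelim_CofixedLine
import Fermat.Agent.MUL.S17.Assembly

/-!
# S09 (Mazur for the Frey curve): conditional core

`S09` follows from `S13` (reducible implies cofixed line) together with the three
"no cofixed line" statements `S10` (p = 5, 7, 13), `S11` (p = 11), `S12` (p ≥ 17).
This file proves that implication with the four inputs as explicit hypotheses, so that the
final `S09.lean` is a one-liner once the inputs exist.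
-/

set_option autoImplicit false
open WeierstrassCurve WeierstrassCurve.Affine WeierstrassCurve.Affine.Point

namespace Fermat.Agent.S09Core

/-- A prime `p ≥ 5` is one of `5, 7, 13`, or `11`, or at least `17`. -/
theorem prime_ge_five_cases {p : ℕ} (pp : p.Prime) (hp5 : 5 ≤ p) :
    (p = 5 ∨ p = 7 ∨ p = 13) ∨ p = 11 ∨ 17 ≤ p := by
  by_contra h
  push Not at h
  obtain ⟨⟨h5, h7, h13⟩, h11, h17⟩ := h
  have hlt : p < 17 := h17
  interval_cases p <;> first | omega | (exact absurd pp (by decide))

/-- `S09` from `S10`, `S11`, `S12`, `S13` (as hypotheses for a fixed Frey package). -/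
theorem irreducible_of_parts (P : FreyPackage)
    (h13 : ¬ GaloisRepIsIrreducible (K := AlgebraicClosure ℚ) ℚ P.freyCurve P.p →
      HasGaloisStableCofixedLine (K := AlgebraicClosure ℚ) ℚ P.freyCurve P.p)
    (h10 : (P.p = 5 ∨ P.p = 7 ∨ P.p = 13) →
      ¬ HasGaloisStableCofixedLine (K := AlgebraicClosure ℚ) ℚ P.freyCurve P.p)
    (h11 : P.p = 11 →
      ¬ HasGaloisStableCofixedLine (K := AlgebraicClosure ℚ) ℚ P.freyCurve P.p)
    (h12 : 17 ≤ P.p →
      ¬ HasGaloisStableCofixedLine (K := AlgebraicClosure ℚ) ℚ P.freyCurve P.p) :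
    GaloisRepIsIrreducible (K := AlgebraicClosure ℚ) ℚ P.freyCurve P.p := by
  by_contra hred
  have hline := h13 hred
  rcases prime_ge_five_cases P.pp P.hp5 with h | h | h
  · exact h10 h hline
  · exact h11 h hline
  · exact h12 h hline

end Fermat.Agent.S09Core
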